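import Fermat.Agent.S59.Final.H53_Mid
import Fermat.Agent.S59.NonMin.Geom.H12_B0Coord
import Fermat.Agent.S59.NonMin.Geom.H92_B0Final
import Fermat.Agent.S59.CaseC.Geom.H47_StepPpt

/-!
# S59: the third layer of the wiring (helper53)

`s59_of3` : the frozen statement S59 from the two inputs which are still open:

* `Stmt_S58`                              (row 52; from S36),
* `∀ p ∈ {3, 5}, LL.H40.LLec0At p`        (level optimisation: SQ-TAME, SQ-TWO, frozen S38, S39ss).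

Plugged in here (in addition to `H53_Mid.lean`): `B0COORD` (helper12), `TWGEOMB` (helper92,
helper30, NEB-GEOM helper84 and team), `STEPPptWIRE` (helper47).

Also: `stmt_Lift0_of`, `stmt_MLTred` (modularity lifting, reduced form, UNCONDITIONAL).

No `sorry`.
-/

set_option autoImplicit false

namespace Fermat.Agent.S59.Final.H53

open Fermat.Agent.S59 Fermat.Agent.S59.Asm Fermat.Agent.S59.NonMin Fermat.Agent.S59.CaseC

/-- The base of the induction `N ↦ N q²`, unconditional. -/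
theorem stmt_TWGEOMB : NonMin.Geom.Stmt_TWGEOMB :=
  NonMin.Geom.H92B.stmt_TWGEOMB_of_coord NonMin.Geom.H12C.stmt_B0COORD

/-- The geometry of the induction `N ↦ N q²`, unconditional. -/
theorem stmt_NMGEOMB : CaseC.Geom.Stmt_NMGEOMB := nmgeomb_of_b0 stmt_TWGEOMB

/-- The algebra of the step at `p`, unconditional. -/
theorem stmt_STEPPpt : CaseC.Geom.Stmt_STEPPpt := steppt_of CaseC.Geom.H47.stmt_STEPPptWIRE

/-- Modularity lifting, reduced form, UNCONDITIONAL. -/
theorem stmt_MLTred : Asm.Stmt_MLTred := mltred_of stmt_NMGEOMB stmt_PSTEPB stmt_STEPPpt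

/-- **S59** from `S58` and the level optimisation. -/
theorem s59_of3 (h58 : Stmt_S58)
    (hLL : ∀ p : ℕ, p = 3 ∨ p = 5 → Fermat.Agent.S59.LL.H40.LLec0At p)
    (p : ℕ) (hp : p = 3 ∨ p = 5)
    (W : WeierstrassCurve ℤ) (hΔ : W.Δ ≠ 0) (hW' : W.IsSemistableModel)
    (hirr : W.ModRepIsIrreducible p)
    (M₀ : ℕ) [NeZero M₀] (hres₀ : W.IsResiduallyModularOfLevel p M₀)
    (hM₀ : ¬ p ^ 2 ∣ M₀)
    (hM₀3 : ∀ q : ℕ, q.Prime → q ≠ p → ¬ q ^ 3 ∣ M₀) :
    Mlc1IsModularModelOfExactConductorLevel W :=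
  s59_of2 h58 hLL stmt_TWGEOMB CaseC.Geom.H47.stmt_STEPPptWIRE p hp W hΔ hW' hirr M₀ hres₀
    hM₀ hM₀3

end Fermat.Agent.S59.Final.H53
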