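import Fermat.Agent.S59.Final.H53_Fin
import Fermat.Agent.S58

/-!
# S59: the last layer of the wiring (helper53)

`s59_of_llec0` : the frozen statement S59 from the level optimisation
`∀ p ∈ {3, 5}, LL.H40.LLec0At p` alone (`Stmt_S58` is `Fermat.Agent.S58.result`, landed).

No `sorry`.
-/

set_option autoImplicit false

namespace Fermat.Agent.S59.Final.H53

open Fermat.Agent.S59

/-- The frozen type of S58, from the landed `Fermat.Agent.S58.result`. -/
theorem stmt_S58 : Stmt_S58 :=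
  fun W hss N p _ hp2 hirr hp2N hN hbad hN3 =>
    Fermat.Agent.S58.result W hss N p hp2 hirr hp2N hN hbad hN3

/-- **S59** from the level optimisation. -/
theorem s59_of_llec0
    (hLL : ∀ p : ℕ, p = 3 ∨ p = 5 → Fermat.Agent.S59.LL.H40.LLec0At p)
    (p : ℕ) (hp : p = 3 ∨ p = 5)
    (W : WeierstrassCurve ℤ) (hΔ : W.Δ ≠ 0) (hW' : W.IsSemistableModel)
    (hirr : W.ModRepIsIrreducible p)
    (M₀ : ℕ) [NeZero M₀] (hres₀ : W.IsResiduallyModularOfLevel p M₀)
    (hM₀ : ¬ p ^ 2 ∣ M₀)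
    (hM₀3 : ∀ q : ℕ, q.Prime → q ≠ p → ¬ q ^ 3 ∣ M₀) :
    Mlc1IsModularModelOfExactConductorLevel W :=
  s59_of3 stmt_S58 hLL p hp W hΔ hW' hirr M₀ hres₀ hM₀ hM₀3

end Fermat.Agent.S59.Final.H53
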