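import Fermat.Agent.S59.Final.H53_Top
import Fermat.Agent.S59.CaseC.Geom.H53_PFin
import Fermat.Agent.S59.CaseC.Geom.H13_PDeg2
import Fermat.Agent.S59.CaseC.Geom.H34_PAlg
import Fermat.Agent.S59.CaseC.Geom.H61_CHEBkp
import Fermat.Agent.S59.CaseC.Geom.H78_Ihara2k
import Fermat.Agent.S59.CaseC.Geom.H7_POrd
import Fermat.Agent.S59.CaseC.Geom.H80_PRelT
import Fermat.Agent.S59.CaseC.Geom.H85_PDualFinal
import Fermat.Agent.S59.CaseC.Geom.H90_PLinkFinal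
import Fermat.Agent.S59.CaseC.Geom.H92_PRel
import Fermat.Agent.S59.NonMin.Geom.H61_BM
import Fermat.Agent.S59.NonMin.Geom.H61_NmgFinal
import Fermat.Agent.S59.NonMin.Geom.Rank.H2_Final2
import Fermat.Agent.S59.LGC.H54_Final
import Fermat.Agent.S59.CaseC.H12_CPNEBridge
import Fermat.Agent.S59.CaseC.H47_Bridge
import Fermat.Agent.S59.CaseC.H80_SelmerPFinal
import Fermat.Agent.S59.NonMin.H7_CondOrdFinal
import Fermat.Agent.S33

/-!
# S59: the second layer of the wiring (helper53)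

`s59_of2` : the frozen statement S59 from the four inputs which are still open:

* `Stmt_S58`                              (row 52; from S36),
* `∀ p ∈ {3, 5}, LL.H40.LLec0At p`        (level optimisation: SQ-TAME, SQ-TWO, frozen S38, S39ss),
* `NonMin.Geom.Stmt_TWGEOMB`              (the base of the induction `N ↦ N q²`: B0),
* `CaseC.Geom.Stmt_STEPPptWIRE`           (the algebra of the step at `p`: wiring).

Plugged in here: `RANK`, `PRANK` (helper2 and the Rank team), `PDEG2WIRE` (helper13), `PFIN`,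
`BM`, `PREL`, `PRELT`, `IHARA2k`, `CHEBkp`, `PDUAL`, `PALG`, `PORD`, `PLINK`, `LGCpt` (helper54),
`DEG3` (helper48, helper61), `S33`, `DEFord`, `ORDT`, `TAUP`, `SELMERp`, `CPNE`.

No `sorry`.
-/

set_option autoImplicit false

namespace Fermat.Agent.S59.Final.H53

open Fermat.Agent.S59 Fermat.Agent.S59.Asm Fermat.Agent.S59.NonMin Fermat.Agent.S59.CaseC

/-- The geometry of the step at `p`, unconditional. -/
theorem stmt_PSTEPB : CaseC.Geom.Stmt_PSTEPB :=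
  CaseC.Geom.H53.pasm_of CaseC.Geom.H13.stmt_PDEG2WIRE CaseC.Geom.H53.stmt_PFIN
    NonMin.Geom.H61.stmt_BM
    CaseC.Geom.H92.stmt_PREL CaseC.Geom.H80.stmt_PRELT CaseC.Geom.H78.stmt_IHARA2k
    CaseC.Geom.H61.stmt_CHEBkp CaseC.Geom.H85.stmt_PDUAL CaseC.Geom.H34.stmt_PALG
    (CaseC.Geom.H7.pord_of Fermat.Agent.S59.LGC.H54.stmt_LGCpt)
    (CaseC.Geom.H90.stmt_PLINK_of Fermat.Agent.S59.LGC.H54.stmt_LGCpt)
    NonMin.Geom.Rank.H2F.stmt_PRANK

/-- The frozen type of S33, from the landed `Fermat.Agent.S33.result`. -/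
theorem stmt_S33 : CaseC.Stmt_S33 := by
  intro p N _ S 𝒪 _ _ _ _ θ T _ _ _ _ _ _ _ _ _ _ hp hp2 hp𝒪 hN hNS H
  exact Fermat.Agent.S33.result hp hp2 hp𝒪 hN hNS H

/-- The algebra of the step at `p` from its wiring. -/
theorem steppt_of (hW : CaseC.Geom.Stmt_STEPPptWIRE) : CaseC.Geom.Stmt_STEPPpt :=
  hW stmt_S33 CaseC.H47.stmt_DEFord NonMin.H7.stmt_ORDT CaseC.H47.stmt_TAUP
    CaseC.H80.stmt_SELMERp (CaseC.H12.cpne_of_geom Fermat.Agent.S59.LGC.H54.stmt_LGCpt)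

/-- The geometry of the induction `N ↦ N q²` from its base. -/
theorem nmgeomb_of_b0 (hB0 : NonMin.Geom.Stmt_TWGEOMB) : CaseC.Geom.Stmt_NMGEOMB :=
  NonMin.Geom.H61.nmgeomb_of_rank_b0 NonMin.Geom.Rank.H2F.stmt_RANK hB0

/-- **S59** from the second layer of open inputs. -/
theorem s59_of2 (h58 : Stmt_S58)
    (hLL : ∀ p : ℕ, p = 3 ∨ p = 5 → Fermat.Agent.S59.LL.H40.LLec0At p)
    (hB0 : NonMin.Geom.Stmt_TWGEOMB) (hW : CaseC.Geom.Stmt_STEPPptWIRE)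
    (p : ℕ) (hp : p = 3 ∨ p = 5)
    (W : WeierstrassCurve ℤ) (hΔ : W.Δ ≠ 0) (hW' : W.IsSemistableModel)
    (hirr : W.ModRepIsIrreducible p)
    (M₀ : ℕ) [NeZero M₀] (hres₀ : W.IsResiduallyModularOfLevel p M₀)
    (hM₀ : ¬ p ^ 2 ∣ M₀)
    (hM₀3 : ∀ q : ℕ, q.Prime → q ≠ p → ¬ q ^ 3 ∣ M₀) :
    Mlc1IsModularModelOfExactConductorLevel W :=
  s59_of0 h58 hLL (nmgeomb_of_b0 hB0) stmt_PSTEPB (steppt_of hW) p hp W hΔ hW' hirr M₀ hres₀
    hM₀ hM₀3

end Fermat.Agent.S59.Final.H53
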