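import Fermat.Agent.S59.Wiring
import Fermat.Agent.S59.Asm.H71_LiftWire
import Fermat.Agent.S59.Asm.H71_CardKer
import Fermat.Agent.S59.Asm.H40_LiftWire0
import Fermat.Agent.S59.Asm.H77_BridgeRes
import Fermat.Agent.S59.Asm.H77_RedWire2
import Fermat.Agent.S59.Asm.H8_RedSplit2
import Fermat.Agent.S59.Asm.H80_ExactB
import Fermat.Agent.S59.Asm.H92_ThetaMin
import Fermat.Agent.S59.Asm.H7_CondUncond
import Fermat.Agent.S59.Asm.H77_Main
import Fermat.Agent.S59.TRes.H49_TRES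
import Fermat.Agent.S59.H61_Stab
import Fermat.Agent.S59.H47_TWprimes
import Fermat.Agent.S59.Datum.Final
import Fermat.Agent.S59.NonMin.H12_BaseFinal
import Fermat.Agent.S59.NonMin.H90_Step
import Fermat.Agent.S59.NonMin.H92_Tau2
import Fermat.Agent.S59.NonMin.H92_Pres
import Fermat.Agent.S59.NonMin.H92_EtaNe
import Fermat.Agent.S59.NonMin.H56_CQNE
import Fermat.Agent.S59.Asm.H80_Selmer
import Fermat.Agent.S59.H99_Def
import Fermat.Agent.S59.CaseC.H2_Wire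
import Fermat.Agent.S59.CaseC.H2_WireP
import Fermat.Agent.S59.CaseC.Geom.Defs
import Fermat.Agent.Tate.Main

/-!
# S59: the top of the chain (helper53)

`s59_of` : the frozen statement S59 from the inputs which are still open:

* `Stmt_S58`                      (row 52; from S36),
* `LL.Stmt_LLec`                  (level lowering to the conductor: `SQ`, frozen S38, frozen S39),
  or `∀ p ∈ {3, 5}, LL.H40.LLec0At p` (the same with auxiliary level raising; `s59_of0`),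
* `CaseC.Geom.Stmt_NMGEOMB`       (the geometry of the induction `N ↦ N q²`, class `G` exposed),
* `CaseC.Geom.Stmt_PSTEPB`        (the geometry of the step at `p`),
* `CaseC.Geom.Stmt_STEPPpt`       (the algebra of the step at `p`).

Everything else is landed and plugged in here.

No `sorry`.
-/

set_option autoImplicit false

namespace Fermat.Agent.S59.Final.H53

open Fermat.Agent.S59 Fermat.Agent.S59.Asm Fermat.Agent.S59.NonMin Fermat.Agent.S59.CaseC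

/-- `NMGEOM-B` contains `Geom.Stmt_NMGEOM2`. -/
theorem nmgeom2_of_B (hB : CaseC.Geom.Stmt_NMGEOMB) : NonMin.Geom.Stmt_NMGEOM2 := by
  intro 𝒪 _ _ _ _ _ _ p _ hp2 hp𝒪 ρbar Smin hyp N _ _ hN hsq hpN θ hθ
  obtain ⟨M, G, h1, h2, h3, h4, -⟩ := hB 𝒪 p hp2 hp𝒪 ρbar Smin hyp N hN hsq hpN θ hθ
  exact ⟨M, G, h1, h2, h3, h4⟩

/-- `STEP` (RT-NONMIN), unconditional. -/
theorem stmt_STEP : NonMin.Stmt_STEP :=
  NonMin.H90.stmt_STEP_of Fermat.Agent.S59.H99.stmt_DEF Fermat.Agent.S59.Datum.stmt_DATUM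
    Asm.H80.stmt_SELMERq NonMin.H92.stmt_TAU2 NonMin.H92.stmt_PRES NonMin.H92.stmt_ETANE
    NonMin.H56.stmt_CQNE Asm.H7.stmt_COND

/-- The induction of RT-NONMIN, unconditional. -/
theorem stmt_RTALL : CaseC.Stmt_RTALL :=
  CaseC.H2.rtall_of stmt_STEP NonMin.H12.stmt_BASE Asm.H7.stmt_COND
    Fermat.Agent.S59.Datum.stmt_DATUM Fermat.Agent.S59.H47.stmt_TWprimes Asm.H77.stmt_ASM

/-- Modularity lifting in the cases A, B from the geometry. -/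
theorem mltnm_of (hB : CaseC.Geom.Stmt_NMGEOMB) : NonMin.Stmt_MLTnm :=
  CaseC.H2.mltnm_of_geom2 (nmgeom2_of_B hB) stmt_STEP NonMin.H12.stmt_BASE Asm.H7.stmt_COND
    Fermat.Agent.S59.Datum.stmt_DATUM Fermat.Agent.S59.H47.stmt_TWprimes Asm.H77.stmt_ASM

/-- Modularity lifting in case C from the geometry and the step at `p`. -/
theorem mltc_of (hB : CaseC.Geom.Stmt_NMGEOMB) (hP : CaseC.Geom.Stmt_PSTEPB)
    (hSP : CaseC.Geom.Stmt_STEPPpt) : CaseC.Stmt_MLTc :=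
  CaseC.H2.stmt_CWIREp (CaseC.Geom.nmgeomp_of hB hP) stmt_RTALL hSP

/-- Modularity lifting, general form with a point. -/
theorem mltgenPt_of (hB : CaseC.Geom.Stmt_NMGEOMB) (hP : CaseC.Geom.Stmt_PSTEPB)
    (hSP : CaseC.Geom.Stmt_STEPPpt) : CaseC.Stmt_MLTgenPt :=
  CaseC.H2.stmt_GENPTWIRE (mltnm_of hB) (mltc_of hB hP hSP)

/-- Modularity lifting, reduced form. -/
theorem mltred_of (hB : CaseC.Geom.Stmt_NMGEOMB) (hP : CaseC.Geom.Stmt_PSTEPB)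
    (hSP : CaseC.Geom.Stmt_STEPPpt) : Asm.Stmt_MLTred :=
  Asm.H8.stmt_REDSPLIT2 Asm.H92.stmt_THETAMIN
    (Asm.H77.stmt_REDWIRE2 Asm.H92.stmt_THETAMIN Asm.H80.stmt_EXACTb (mltgenPt_of hB hP hSP))

/-- `Stmt_Lift` from the open inputs. -/
theorem lift_of (hLL : Fermat.Agent.S59.LL.Stmt_LLec) (hB : CaseC.Geom.Stmt_NMGEOMB)
    (hP : CaseC.Geom.Stmt_PSTEPB) (hSP : CaseC.Geom.Stmt_STEPPpt) : Stmt_Lift :=
  Asm.H71.stmt_LIFTWIRE Fermat.Agent.Tate.stmt_Tate hLL Asm.H71.stmt_CARDKER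
    Asm.H77.stmt_BRIDGERES Fermat.Agent.S59.TRes.H49.stmt_TRES (mltred_of hB hP hSP)
    Fermat.Agent.S59.H61.stmt_Stab

/-- `Stmt_Lift` from the open inputs, with `LLec0At` (level optimisation with auxiliary level
raising, helper40). -/
theorem lift_of0 (hLL : ∀ p : ℕ, p = 3 ∨ p = 5 → Fermat.Agent.S59.LL.H40.LLec0At p)
    (hB : CaseC.Geom.Stmt_NMGEOMB)
    (hP : CaseC.Geom.Stmt_PSTEPB) (hSP : CaseC.Geom.Stmt_STEPPpt) : Stmt_Lift :=
  Asm.H40.stmt_LIFTWIRE0 Fermat.Agent.Tate.stmt_Tate hLL Asm.H71.stmt_CARDKER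
    Asm.H77.stmt_BRIDGERES Fermat.Agent.S59.TRes.H49.stmt_TRES (mltred_of hB hP hSP)
    Fermat.Agent.S59.H61.stmt_Stab

/-- **S59** from the inputs which are still open (form with `LLec0At`). -/
theorem s59_of0 (h58 : Stmt_S58)
    (hLL : ∀ p : ℕ, p = 3 ∨ p = 5 → Fermat.Agent.S59.LL.H40.LLec0At p)
    (hB : CaseC.Geom.Stmt_NMGEOMB) (hP : CaseC.Geom.Stmt_PSTEPB)
    (hSP : CaseC.Geom.Stmt_STEPPpt)
    (p : ℕ) (hp : p = 3 ∨ p = 5)
    (W : WeierstrassCurve ℤ) (hΔ : W.Δ ≠ 0) (hW : W.IsSemistableModel)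
    (hirr : W.ModRepIsIrreducible p)
    (M₀ : ℕ) [NeZero M₀] (hres₀ : W.IsResiduallyModularOfLevel p M₀)
    (hM₀ : ¬ p ^ 2 ∣ M₀)
    (hM₀3 : ∀ q : ℕ, q.Prime → q ≠ p → ¬ q ^ 3 ∣ M₀) :
    Mlc1IsModularModelOfExactConductorLevel W :=
  S59_of_lift h58 (lift_of0 hLL hB hP hSP) p hp W hΔ hW hirr M₀ hres₀ hM₀ hM₀3

/-- **S59** from the inputs which are still open. -/
theorem s59_of (h58 : Stmt_S58) (hLL : Fermat.Agent.S59.LL.Stmt_LLec)
    (hB : CaseC.Geom.Stmt_NMGEOMB) (hP : CaseC.Geom.Stmt_PSTEPB)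
    (hSP : CaseC.Geom.Stmt_STEPPpt)
    (p : ℕ) (hp : p = 3 ∨ p = 5)
    (W : WeierstrassCurve ℤ) (hΔ : W.Δ ≠ 0) (hW : W.IsSemistableModel)
    (hirr : W.ModRepIsIrreducible p)
    (M₀ : ℕ) [NeZero M₀] (hres₀ : W.IsResiduallyModularOfLevel p M₀)
    (hM₀ : ¬ p ^ 2 ∣ M₀)
    (hM₀3 : ∀ q : ℕ, q.Prime → q ≠ p → ¬ q ^ 3 ∣ M₀) :
    Mlc1IsModularModelOfExactConductorLevel W :=
  S59_of_lift h58 (lift_of hLL hB hP hSP) p hp W hΔ hW hirr M₀ hres₀ hM₀ hM₀3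

end Fermat.Agent.S59.Final.H53
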